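import Fermat.Agent.S24.Alg.LocOrd

/-!
# S18 / MOD M2 — branch values: abstract transfer lemma (helper696)

Setting: `F/K` a field extension, `v : Place K F` (Prelude), `t, j ∈ F` with `j = A(t)/B(t)`
for polynomials `A, B ∈ K[X]`.

* `ord_aeval_eq_zero` : if `ord_v (t - c) > 0` and `P(c) ≠ 0` then `ord_v P(t) = 0`, `P(t) ≠ 0`.
* `ord_sub_eq_mul`    : if `A - a B = (X - c)^e G`, `G(c) ≠ 0`, `B(c) ≠ 0`, `ord_v (t - c) > 0`
                        then `ord_v (j - a) = e * ord_v (t - c)`.
* `t2_unramified`     : `j t² = (t + 256)³` + (`F/K(j)` unramified outside `0, 1728`,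
                        `e ∣ 3` over `0`, `e ∣ 2` over `1728`)  ⟹  `F/K(t)` is unramified over
                        every `c ∉ {0, -64}`.
* `t3_unramified`     : `j t³ = (t + 27)(t + 243)³` + same  ⟹  unramified over `c ∉ {0, -27}`.
* `t2_ord_dvd_two`, `t3_ord_dvd_three` : tameness at the finite branch value.
* `inv_unramified`    : the same statement in the chart at infinity (`x' = 1/t`).

Everything is Mathlib + Prelude `Place` + the `ord` calculus of `S24/Alg/LocOrd`.
-/

set_option autoImplicit false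
set_option linter.unusedSimpArgs false

noncomputable section

open AlgebraicCurve Polynomial
open Fermat.Agent.S24.H144

namespace Fermat.Agent.S18.H696

variable {K F : Type*} [Field K] [Field F] [Algebra K F]

/-- `t` lies in the valuation ring of `v` as soon as `ord_v (t - c) > 0`. -/
theorem mem_of_ord_sub_pos (v : Place K F) (t : F) (c : K)
    (hv : 0 < v.ord (t - algebraMap K F c)) : t ∈ v.toValuationSubring := by
  have h1 : t - algebraMap K F c ∈ v.toValuationSubring := loc_mem_of_ord_nonneg v hv.le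
  have h2 : algebraMap K F c ∈ v.toValuationSubring := v.algebraMap_mem' c
  have := add_mem h1 h2
  simpa using this

/-- Polynomials in an element of the valuation ring stay in the valuation ring. -/
theorem aeval_mem_valuationSubring (v : Place K F) (t : F) (ht : t ∈ v.toValuationSubring)
    (P : K[X]) : aeval t P ∈ v.toValuationSubring := by
  induction P using Polynomial.induction_on' with
  | add p q hp hq => rw [map_add]; exact add_mem hp hq
  | monomial n a =>
    rw [aeval_monomial]
    exact mul_mem (v.algebraMap_mem' a) (pow_mem ht n)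

theorem ne_zero_of_ord_pos (v : Place K F) {f : F} (h : 0 < v.ord f) : f ≠ 0 := by
  rintro rfl
  simp at h

/-- If `ord_v (t - c) > 0` and `P(c) ≠ 0`, then `P(t)` is a `v`-unit. -/
theorem ord_aeval_eq_zero (v : Place K F) (t : F) (c : K)
    (hv : 0 < v.ord (t - algebraMap K F c)) (P : K[X]) (hP : P.eval c ≠ 0) :
    v.ord (aeval t P) = 0 ∧ aeval t P ≠ 0 := by
  have hdec : P = C (P.eval c) + (X - C c) * (P /ₘ (X - C c)) := by
    have h := Polynomial.modByMonic_add_div P (X - C c)
    rw [Polynomial.modByMonic_X_sub_C_eq_C_eval] at h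
    exact h.symm
  set Q := P /ₘ (X - C c) with hQ
  have hval : aeval t P = algebraMap K F (P.eval c) + (t - algebraMap K F c) * aeval t Q := by
    conv_lhs => rw [hdec]
    simp [aeval_C]
  have hc0 : algebraMap K F (P.eval c) ≠ 0 := by
    simpa using hP
  have hcord : v.ord (algebraMap K F (P.eval c)) = 0 := loc_ord_algebraMap v _
  have ht : t ∈ v.toValuationSubring := mem_of_ord_sub_pos v t c hv
  have hQmem : aeval t Q ∈ v.toValuationSubring := aeval_mem_valuationSubring v t ht Q
  have hs0 : t - algebraMap K F c ≠ 0 := ne_zero_of_ord_pos v hv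
  rcases eq_or_ne (aeval t Q) 0 with hq | hq
  · rw [hval, hq, mul_zero, add_zero]
    exact ⟨hcord, hc0⟩
  · have hg0 : (t - algebraMap K F c) * aeval t Q ≠ 0 := mul_ne_zero hs0 hq
    have hgord : 0 < v.ord ((t - algebraMap K F c) * aeval t Q) := by
      rw [v.ord_mul hs0 hq]
      have := loc_ord_nonneg_of_mem v hQmem
      omega
    have hlt : v.ord (algebraMap K F (P.eval c)) < v.ord ((t - algebraMap K F c) * aeval t Q) := by
      rw [hcord]; exact hgord
    have hsum := loc_ord_add_eq_of_lt v hc0 hg0 hlt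
    refine ⟨by rw [hval, hsum, hcord], ?_⟩
    rw [hval]
    intro h0
    have h1 : (t - algebraMap K F c) * aeval t Q = -algebraMap K F (P.eval c) := by
      rw [eq_neg_iff_add_eq_zero, add_comm]; exact h0
    rw [h1, loc_ord_neg, hcord] at hgord
    exact lt_irrefl _ hgord

/-- **Transfer of orders.**  If `j = A(t)/B(t)`, `A - a B = (X - c)^e G` with `G(c) ≠ 0`,
`B(c) ≠ 0` and `ord_v (t - c) > 0`, then `ord_v (j - a) = e · ord_v (t - c)`. -/
theorem ord_sub_eq_mul (v : Place K F) (t j : F) (c a : K) (e : ℕ) (A B G : K[X])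
    (hrel : j * aeval t B = aeval t A)
    (hB : B.eval c ≠ 0) (hfac : A - C a * B = (X - C c) ^ e * G) (hG : G.eval c ≠ 0)
    (hv : 0 < v.ord (t - algebraMap K F c)) :
    v.ord (j - algebraMap K F a) = e * v.ord (t - algebraMap K F c) ∧
      j - algebraMap K F a ≠ 0 := by
  obtain ⟨hBord, hB0⟩ := ord_aeval_eq_zero v t c hv B hB
  obtain ⟨hGord, hG0⟩ := ord_aeval_eq_zero v t c hv G hG
  have hs0 : t - algebraMap K F c ≠ 0 := ne_zero_of_ord_pos v hv
  have hkey : (j - algebraMap K F a) * aeval t B = (t - algebraMap K F c) ^ e * aeval t G := by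
    have h := congrArg (aeval t) hfac
    simp only [map_sub, map_mul, map_pow, aeval_C, aeval_X] at h
    rw [sub_mul, hrel, h]
  have hrhs0 : (t - algebraMap K F c) ^ e * aeval t G ≠ 0 := mul_ne_zero (pow_ne_zero e hs0) hG0
  have hja0 : j - algebraMap K F a ≠ 0 := by
    intro h0
    rw [h0, zero_mul] at hkey
    exact hrhs0 hkey.symm
  refine ⟨?_, hja0⟩
  have h1 := congrArg v.ord hkey
  rw [v.ord_mul hja0 hB0, v.ord_mul (pow_ne_zero e hs0) hG0, hBord, hGord, loc_ord_pow] at h1
  simpa using h1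

/-- Positive divisor of `n` that is a positive multiple `n * k`, `k > 0`: then `k = 1`. -/
theorem eq_one_of_mul_dvd {n k : ℤ} (hn : 0 < n) (hk : 0 < k) (h : n * k ∣ n) : k = 1 := by
  have h1 : n * k ≤ n := Int.le_of_dvd hn h
  have h2 : n * 1 ≤ n * k := by
    apply mul_le_mul_of_nonneg_left _ hn.le
    omega
  have h3 : n * k = n * 1 := by omega
  exact mul_left_cancel₀ hn.ne' h3

section Hauptmodul

variable [CharZero K]

/-- **Branch values of the `t₂`-line.**  If `j t² = (t + 256)³` and `F/K(j)` is unramified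
outside `0, 1728, ∞` with ramification indices dividing `3` over `0` and `2` over `1728`, then
every place of `F` over `t = c`, `c ∉ {0, -64}`, is unramified over `K(t)`. -/
theorem t2_unramified (t j : F) (hrel : j * t ^ 2 = (t + 256) ^ 3)
    (hgen : ∀ a : K, a ≠ 0 → a ≠ 1728 → ∀ v : Place K F,
      0 < v.ord (j - algebraMap K F a) → v.ord (j - algebraMap K F a) = 1)
    (h0 : ∀ v : Place K F, 0 < v.ord j → v.ord j ∣ 3)
    (h1728 : ∀ v : Place K F, 0 < v.ord (j - 1728) → v.ord (j - 1728) ∣ 2)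
    (c : K) (hc0 : c ≠ 0) (hc64 : c ≠ -64) (v : Place K F)
    (hv : 0 < v.ord (t - algebraMap K F c)) :
    v.ord (t - algebraMap K F c) = 1 := by
  have hrel' : j * aeval t (X ^ 2 : K[X]) = aeval t ((X + C 256) ^ 3 : K[X]) := by
    simp only [map_pow, map_add, map_mul, aeval_X, aeval_C, map_ofNat]
    exact hrel
  have hBc : (X ^ 2 : K[X]).eval c ≠ 0 := by simpa using hc0
  by_cases hc256 : c = -256
  · -- `j = 0`, `e = 3`
    subst hc256
    have hfac : ((X + C 256) ^ 3 : K[X]) - C 0 * X ^ 2 = (X - C (-256)) ^ 3 * 1 := by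
      simp only [map_zero, zero_mul, sub_zero, mul_one, map_neg, sub_neg_eq_add]
    obtain ⟨hord, hne⟩ := ord_sub_eq_mul v t j (-256) 0 3 _ _ 1 hrel' hBc hfac (by simp) hv
    rw [map_zero, sub_zero] at hord hne
    have hjpos : 0 < v.ord j := by rw [hord]; exact mul_pos (by norm_num) hv
    have hd := h0 v hjpos
    rw [hord] at hd
    exact eq_one_of_mul_dvd (n := 3) (by norm_num) hv (by exact_mod_cast hd)
  by_cases hc512 : c = 512
  · -- `j = 1728`, `e = 2`
    subst hc512
    have hfac : ((X + C 256) ^ 3 : K[X]) - C 1728 * X ^ 2 = (X - C 512) ^ 2 * (X + C 64) := by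
      simp only [map_ofNat]
      ring
    have hG : (X + C 64 : K[X]).eval 512 ≠ 0 := by
      simp only [eval_add, eval_X, eval_C]
      norm_num
    obtain ⟨hord, hne⟩ := ord_sub_eq_mul v t j 512 1728 2 _ _ _ hrel' hBc hfac hG hv
    rw [map_ofNat] at hord hne
    have hjpos : 0 < v.ord (j - 1728) := by rw [hord]; exact mul_pos (by norm_num) hv
    have hd := h1728 v hjpos
    rw [hord] at hd
    exact eq_one_of_mul_dvd (n := 2) (by norm_num) hv (by exact_mod_cast hd)
  · -- generic `c`
    set a : K := (c + 256) ^ 3 / c ^ 2 with ha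
    have hac : a * c ^ 2 = (c + 256) ^ 3 := by
      rw [ha]; field_simp
    have hc256' : c + 256 ≠ 0 := fun h => hc256 (eq_neg_of_add_eq_zero_left h)
    have hc512' : c - 512 ≠ 0 := sub_ne_zero.mpr hc512
    have hc64' : c + 64 ≠ 0 := fun h => hc64 (eq_neg_of_add_eq_zero_left h)
    have ha0 : a ≠ 0 := by
      intro h
      rw [h, zero_mul] at hac
      exact pow_ne_zero 3 hc256' hac.symm
    have ha1728 : a ≠ 1728 := by
      intro h
      rw [h] at hac
      have : (c - 512) ^ 2 * (c + 64) = 0 := by linear_combination -hac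
      exact mul_ne_zero (pow_ne_zero 2 hc512') hc64' this
    set G : K[X] := X ^ 2 + C (c + 768 - a) * X + C (c ^ 2 + (768 - a) * c + 196608) with hGdef
    have hfac : ((X + C 256) ^ 3 : K[X]) - C a * X ^ 2 = (X - C c) ^ 1 * G := by
      have hz : (C ((c + 256) ^ 3 - a * c ^ 2) : K[X]) = 0 := by
        rw [hac, sub_self, map_zero]
      have : ((X + C 256) ^ 3 : K[X]) - C a * X ^ 2
          = (X - C c) ^ 1 * G + C ((c + 256) ^ 3 - a * c ^ 2) := by
        rw [hGdef]
        simp only [map_add, map_sub, map_mul, map_pow, map_ofNat]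
        ring
      rw [this, hz, add_zero]
    have hG : G.eval c ≠ 0 := by
      rw [hGdef]
      simp only [eval_add, eval_mul, eval_pow, eval_X, eval_C]
      intro h
      have : c * (c + 256) ^ 2 * (c - 512) = 0 := by
        linear_combination c ^ 2 * h + 2 * c * hac
      exact mul_ne_zero (mul_ne_zero hc0 (pow_ne_zero 2 hc256')) hc512' this
    obtain ⟨hord, hne⟩ := ord_sub_eq_mul v t j c a 1 _ _ G hrel' hBc hfac hG hv
    rw [Nat.cast_one, one_mul] at hord
    have hjpos : 0 < v.ord (j - algebraMap K F a) := by rw [hord]; exact hv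
    rw [← hord]
    exact hgen a ha0 ha1728 v hjpos

/-- Tameness at the finite branch value `-64` of the `t₂`-line: `e ∣ 2`. -/
theorem t2_ord_dvd_two (t j : F) (hrel : j * t ^ 2 = (t + 256) ^ 3)
    (h1728 : ∀ v : Place K F, 0 < v.ord (j - 1728) → v.ord (j - 1728) ∣ 2)
    (v : Place K F) (hv : 0 < v.ord (t + 64)) : v.ord (t + 64) ∣ 2 := by
  have hrel' : j * aeval t (X ^ 2 : K[X]) = aeval t ((X + C 256) ^ 3 : K[X]) := by
    simp only [map_pow, map_add, map_mul, aeval_X, aeval_C, map_ofNat]
    exact hrel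
  have hBc : (X ^ 2 : K[X]).eval (-64 : K) ≠ 0 := by simp
  have hv' : 0 < v.ord (t - algebraMap K F (-64)) := by
    rwa [map_neg, sub_neg_eq_add, map_ofNat]
  have hfac : ((X + C 256) ^ 3 : K[X]) - C 1728 * X ^ 2
      = (X - C (-64)) ^ 1 * (X - C 512) ^ 2 := by
    simp only [map_ofNat, map_neg]
    ring
  have hG : ((X - C 512) ^ 2 : K[X]).eval (-64) ≠ 0 := by
    simp only [eval_pow, eval_sub, eval_X, eval_C]
    norm_num
  obtain ⟨hord, hne⟩ := ord_sub_eq_mul v t j (-64) 1728 1 _ _ _ hrel' hBc hfac hG hv'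
  rw [map_ofNat, Nat.cast_one, one_mul, map_neg, sub_neg_eq_add, map_ofNat] at hord
  rw [← hord]
  exact h1728 v (by rw [hord]; exact hv)

/-- **Branch values of the `t₃`-line.**  If `j t³ = (t + 27)(t + 243)³` and `F/K(j)` is
unramified outside `0, 1728, ∞` with ramification indices dividing `3` over `0` and `2` over
`1728`, then every place of `F` over `t = c`, `c ∉ {0, -27}`, is unramified over `K(t)`. -/
theorem t3_unramified (t j : F) (hrel : j * t ^ 3 = (t + 27) * (t + 243) ^ 3)
    (hgen : ∀ a : K, a ≠ 0 → a ≠ 1728 → ∀ v : Place K F,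
      0 < v.ord (j - algebraMap K F a) → v.ord (j - algebraMap K F a) = 1)
    (h0 : ∀ v : Place K F, 0 < v.ord j → v.ord j ∣ 3)
    (h1728 : ∀ v : Place K F, 0 < v.ord (j - 1728) → v.ord (j - 1728) ∣ 2)
    (c : K) (hc0 : c ≠ 0) (hc27 : c ≠ -27) (v : Place K F)
    (hv : 0 < v.ord (t - algebraMap K F c)) :
    v.ord (t - algebraMap K F c) = 1 := by
  have hrel' : j * aeval t (X ^ 3 : K[X])
      = aeval t ((X + C 27) * (X + C 243) ^ 3 : K[X]) := by
    simp only [map_pow, map_add, map_mul, aeval_X, aeval_C, map_ofNat]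
    exact hrel
  have hBc : (X ^ 3 : K[X]).eval c ≠ 0 := by simpa using hc0
  by_cases hc243 : c = -243
  · -- `j = 0`, `e = 3`
    subst hc243
    have hfac : ((X + C 27) * (X + C 243) ^ 3 : K[X]) - C 0 * X ^ 3
        = (X - C (-243)) ^ 3 * (X + C 27) := by
      simp only [map_zero, zero_mul, sub_zero, map_neg, sub_neg_eq_add]
      ring
    have hG : (X + C 27 : K[X]).eval (-243) ≠ 0 := by
      simp only [eval_add, eval_X, eval_C]
      norm_num
    obtain ⟨hord, hne⟩ := ord_sub_eq_mul v t j (-243) 0 3 _ _ _ hrel' hBc hfac hG hv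
    rw [map_zero, sub_zero] at hord hne
    have hjpos : 0 < v.ord j := by rw [hord]; exact mul_pos (by norm_num) hv
    have hd := h0 v hjpos
    rw [hord] at hd
    exact eq_one_of_mul_dvd (n := 3) (by norm_num) hv (by exact_mod_cast hd)
  by_cases hcq : c ^ 2 - 486 * c - 19683 = 0
  · -- `j = 1728`, `e = 2`
    have hfac : ((X + C 27) * (X + C 243) ^ 3 : K[X]) - C 1728 * X ^ 3
        = (X - C c) ^ 2 * (X - C (486 - c)) ^ 2 := by
      have hz : (C (c ^ 2 - 486 * c - 19683) : K[X]) = 0 := by rw [hcq, map_zero]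
      have h1 : (X - C c) * (X - C (486 - c))
          = X ^ 2 - 486 * X - 19683 - C (c ^ 2 - 486 * c - 19683) := by
        simp only [map_sub, map_mul, map_pow, map_ofNat]
        ring
      rw [hz, sub_zero] at h1
      rw [← mul_pow, h1]
      simp only [map_ofNat]
      ring
    have hG : ((X - C (486 - c)) ^ 2 : K[X]).eval c ≠ 0 := by
      simp only [eval_pow, eval_sub, eval_X, eval_C]
      intro h
      have : (314928 : K) = 0 := by
        linear_combination h - 4 * hcq
      norm_num at this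
    obtain ⟨hord, hne⟩ := ord_sub_eq_mul v t j c 1728 2 _ _ _ hrel' hBc hfac hG hv
    rw [map_ofNat] at hord hne
    have hjpos : 0 < v.ord (j - 1728) := by rw [hord]; exact mul_pos (by norm_num) hv
    have hd := h1728 v hjpos
    rw [hord] at hd
    exact eq_one_of_mul_dvd (n := 2) (by norm_num) hv (by exact_mod_cast hd)
  · -- generic `c`
    set a : K := (c + 27) * (c + 243) ^ 3 / c ^ 3 with ha
    have hac : a * c ^ 3 = (c + 27) * (c + 243) ^ 3 := by
      rw [ha]; field_simp
    have hc243' : c + 243 ≠ 0 := fun h => hc243 (eq_neg_of_add_eq_zero_left h)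
    have hc27' : c + 27 ≠ 0 := fun h => hc27 (eq_neg_of_add_eq_zero_left h)
    have ha0 : a ≠ 0 := by
      intro h
      rw [h, zero_mul] at hac
      exact mul_ne_zero hc27' (pow_ne_zero 3 hc243') hac.symm
    have ha1728 : a ≠ 1728 := by
      intro h
      rw [h] at hac
      have : (c ^ 2 - 486 * c - 19683) ^ 2 = 0 := by linear_combination -hac
      exact hcq ((pow_eq_zero_iff (two_ne_zero)).mp this)
    set G : K[X] := X ^ 3 + C (c + 756 - a) * X ^ 2 + C (c ^ 2 + (756 - a) * c + 196830) * X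
      + C (c ^ 3 + (756 - a) * c ^ 2 + 196830 * c + 19131876) with hGdef
    have hfac : ((X + C 27) * (X + C 243) ^ 3 : K[X]) - C a * X ^ 3 = (X - C c) ^ 1 * G := by
      have hz : (C ((c + 27) * (c + 243) ^ 3 - a * c ^ 3) : K[X]) = 0 := by
        rw [hac, sub_self, map_zero]
      have : ((X + C 27) * (X + C 243) ^ 3 : K[X]) - C a * X ^ 3
          = (X - C c) ^ 1 * G + C ((c + 27) * (c + 243) ^ 3 - a * c ^ 3) := by
        rw [hGdef]
        simp only [map_add, map_sub, map_mul, map_pow, map_ofNat]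
        ring
      rw [this, hz, add_zero]
    have hG : G.eval c ≠ 0 := by
      rw [hGdef]
      simp only [eval_add, eval_mul, eval_pow, eval_X, eval_C]
      intro h
      have : c ^ 2 * (c + 243) ^ 2 * (c ^ 2 - 486 * c - 19683) = 0 := by
        linear_combination c ^ 3 * h + 3 * c ^ 2 * hac
      exact mul_ne_zero (mul_ne_zero (pow_ne_zero 2 hc0) (pow_ne_zero 2 hc243')) hcq this
    obtain ⟨hord, hne⟩ := ord_sub_eq_mul v t j c a 1 _ _ G hrel' hBc hfac hG hv
    rw [Nat.cast_one, one_mul] at hord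
    have hjpos : 0 < v.ord (j - algebraMap K F a) := by rw [hord]; exact hv
    rw [← hord]
    exact hgen a ha0 ha1728 v hjpos

/-- Tameness at the finite branch value `-27` of the `t₃`-line: `e ∣ 3`. -/
theorem t3_ord_dvd_three (t j : F) (hrel : j * t ^ 3 = (t + 27) * (t + 243) ^ 3)
    (h0 : ∀ v : Place K F, 0 < v.ord j → v.ord j ∣ 3)
    (v : Place K F) (hv : 0 < v.ord (t + 27)) : v.ord (t + 27) ∣ 3 := by
  have hrel' : j * aeval t (X ^ 3 : K[X])
      = aeval t ((X + C 27) * (X + C 243) ^ 3 : K[X]) := by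
    simp only [map_pow, map_add, map_mul, aeval_X, aeval_C, map_ofNat]
    exact hrel
  have hBc : (X ^ 3 : K[X]).eval (-27 : K) ≠ 0 := by simp
  have hv' : 0 < v.ord (t - algebraMap K F (-27)) := by
    rwa [map_neg, sub_neg_eq_add, map_ofNat]
  have hfac : ((X + C 27) * (X + C 243) ^ 3 : K[X]) - C 0 * X ^ 3
      = (X - C (-27)) ^ 1 * (X + C 243) ^ 3 := by
    simp only [map_zero, zero_mul, sub_zero, map_neg, sub_neg_eq_add, pow_one]
  have hG : ((X + C 243) ^ 3 : K[X]).eval (-27) ≠ 0 := by
    simp only [eval_pow, eval_add, eval_X, eval_C]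
    norm_num
  obtain ⟨hord, hne⟩ := ord_sub_eq_mul v t j (-27) 0 1 _ _ _ hrel' hBc hfac hG hv'
  rw [map_zero, sub_zero, Nat.cast_one, one_mul, map_neg, sub_neg_eq_add, map_ofNat] at hord
  rw [← hord]
  exact h0 v (by rw [hord]; exact hv)

end Hauptmodul

/-- **Chart at infinity.**  If `F/K(t)` is unramified over `t = c` (`c ≠ 0`), then it is
unramified over `t⁻¹ = c⁻¹`. -/
theorem inv_unramified (t : F) (c' : K) (hc' : c' ≠ 0)
    (h : ∀ v : Place K F, 0 < v.ord (t - algebraMap K F c'⁻¹) →
      v.ord (t - algebraMap K F c'⁻¹) = 1)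
    (v : Place K F) (hv : 0 < v.ord (t⁻¹ - algebraMap K F c')) :
    v.ord (t⁻¹ - algebraMap K F c') = 1 := by
  have hcF : algebraMap K F c' ≠ 0 := by simpa using hc'
  have hs0 : t⁻¹ - algebraMap K F c' ≠ 0 := ne_zero_of_ord_pos v hv
  -- `t⁻¹` is a unit at `v`
  have hti : t⁻¹ ∈ v.toValuationSubring := mem_of_ord_sub_pos v t⁻¹ c' hv
  have hti0 : t⁻¹ ≠ 0 := by
    intro h0
    rw [h0, zero_sub, loc_ord_neg, loc_ord_algebraMap] at hv
    exact lt_irrefl _ hv
  have ht0 : t ≠ 0 := fun h0 => hti0 (by rw [h0, inv_zero])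
  have hord_ti : v.ord t⁻¹ = 0 := by
    have h1 : t⁻¹ = algebraMap K F c' + (t⁻¹ - algebraMap K F c') := by ring
    have h2 : v.ord (algebraMap K F c') < v.ord (t⁻¹ - algebraMap K F c') := by
      rw [loc_ord_algebraMap]; exact hv
    have h3 := loc_ord_add_eq_of_lt v hcF hs0 h2
    rw [← h1, loc_ord_algebraMap] at h3
    exact h3
  have hord_t : v.ord t = 0 := by
    have := v.ord_inv t
    omega
  have hkey : t - algebraMap K F c'⁻¹
      = -(algebraMap K F c'⁻¹ * t) * (t⁻¹ - algebraMap K F c') := by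
    rw [map_inv₀]
    field_simp
    ring
  have hci0 : algebraMap K F c'⁻¹ ≠ 0 := by simpa using hc'
  have hfac0 : -(algebraMap K F c'⁻¹ * t) ≠ 0 := neg_ne_zero.mpr (mul_ne_zero hci0 ht0)
  have hfacord : v.ord (-(algebraMap K F c'⁻¹ * t)) = 0 := by
    rw [loc_ord_neg, v.ord_mul hci0 ht0, loc_ord_algebraMap, hord_t, add_zero]
  have hordeq : v.ord (t - algebraMap K F c'⁻¹) = v.ord (t⁻¹ - algebraMap K F c') := by
    rw [hkey, v.ord_mul hfac0 hs0, hfacord, zero_add]
  rw [← hordeq]
  exact h v (by rw [hordeq]; exact hv)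

end Fermat.Agent.S18.H696
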