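import Fermat.Agent.S24.Alg
import Fermat.Agent.S24.Mod
import Fermat.Agent.S18.H696.BranchAbs

/-!
# S18 / MOD M2 — branch values of `F_M / ℚ̄(x)` for `x = j, t₂, t₃` (helper696)

`F_M = FF M = modularFunctionFieldBar M` (function field of `X₀(M)` over `ℚ̄`),
`j = jF M`, places = Prelude `Place ℚ̄ F_M`.

From the S24 analytic core (local embedding data with `m = 3` at `j = 0`, `m = 2` at
`j = 1728`, trivial monodromy elsewhere):

* `jF_unramified`      : `a ≠ 0, 1728`, `ord_v (j - a) > 0`  ⟹  `ord_v (j - a) = 1`;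
* `jF_ord_dvd_three`   : `ord_v j > 0`  ⟹  `ord_v j ∣ 3`;
* `jF_ord_dvd_two`     : `ord_v (j - 1728) > 0`  ⟹  `ord_v (j - 1728) ∣ 2`.

Consequences for a Hauptmodul `t ∈ F_M` (any element satisfying the classical relation):

* `t2_branch` : `j t² = (t + 256)³`  ⟹  `F_M/ℚ̄(t)` unramified over every `c ∉ {0, -64}`,
                and `e ∣ 2` over `-64`;
* `t3_branch` : `j t³ = (t + 27)(t + 243)³`  ⟹  unramified over every `c ∉ {0, -27}`,
                and `e ∣ 3` over `-27`.

So the finite branch values are `{0, 1728}` (`x = j`; distinct mod `ℓ ≥ 5`), `{0, -64}`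
(`x = t₂`; distinct mod `3`), `{0, -27}` (`x = t₃`; distinct mod `2`).
-/

set_option autoImplicit false
set_option linter.style.haveILetI false

noncomputable section

open AlgebraicCurve ModularCurve
open scoped MatrixGroups
open Fermat.Agent.S24 Fermat.Agent.S24.H144

namespace Fermat.Agent.S18.H696

section Abstract

variable {K F : Type*} [Field K] [Field F] [Algebra K F] [CharZero K]
variable {C : Type*} [Field C] {X : Type*} [Finite X]

/-- For local embedding data at `t`, the order of `t` at any of its zeros divides `m`. -/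
theorem ord_dvd_m_of_localData {t : F} (d : LocalData K F C X t)
    (F₀ : IntermediateField K F) (hF₀ : F₀ ≤ IntermediateField.adjoin K {t})
    [FiniteDimensional F₀ F] (hrank : Module.finrank F₀ F = Nat.card X)
    (v : Place K F) (hv : 0 < v.ord t) : v.ord t ∣ (d.m : ℤ) := by
  obtain ⟨x, rfl⟩ := H117.exists_placeOf_eq d F₀ hF₀ hrank v hv
  exact ⟨H117.mult d x, by rw [← H117.mult_mul_ord_t d x]; ring⟩

end Abstract

section Modular

variable (N : ℕ) [NeZero N]

/-- `F_N/ℚ̄(j)` is unramified over every `a ∉ {0, 1728}`. -/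
theorem jF_unramified (a : Kbar) (ha0 : a ≠ 0) (ha : a ≠ 1728) (v : Place Kbar (FF N))
    (hv : 0 < v.ord (jF N - algebraMap Kbar (FF N) a)) :
    v.ord (jF N - algebraMap Kbar (FF N) a) = 1 := by
  obtain ⟨P⟩ := nonempty_modularPackage N
  haveI := P.finiteDimensional
  obtain ⟨-, -, -, -, h⟩ := local_fin (jF N) P.finrank_eq a (P.dataFin a)
  exact h (P.perm_generic a ha0 ha) v hv

/-- The `m` of the local data of a (transported) point datum. -/
theorem dataOfPoint_m_of_heq (A : H997.AnalyticCore N) {a : Kbar} {b : ℂ} {ε : SL(2, ℤ)}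
    (hab : H997.ιK a = b) (P : H997.PointData A.toHolBase (H997.ιK a) ε)
    (Q : H997.PointData A.toHolBase b ε) (h : HEq P Q) :
    (A.dataOfPoint P).m = Q.R.m := by
  subst hab
  rw [eq_of_heq h]
  rfl

universe uH in
theorem heq_mpr_self {α β : Sort uH} (h : α = β) (b : β) : HEq (Eq.mpr h b) b := by
  subst h
  rfl

theorem analyticCore_dataFin_zero_m : ((H997.analyticCore N).dataFin 0).m = 3 := by
  unfold H997.AnalyticCore.dataFin
  rw [dif_pos rfl]
  exact (dataOfPoint_m_of_heq N (H997.analyticCore N) (map_zero _) _ (H997.analyticCore N).at0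
    ((heq_mpr_self _ _).trans (heq_mpr_self _ _))).trans rfl

theorem analyticCore_dataFin_1728_m : ((H997.analyticCore N).dataFin 1728).m = 2 := by
  have h0 : (1728 : Kbar) ≠ 0 := by norm_num
  unfold H997.AnalyticCore.dataFin
  rw [dif_neg h0, dif_pos rfl]
  exact (dataOfPoint_m_of_heq N (H997.analyticCore N) (map_ofNat _ 1728) _
    (H997.analyticCore N).at1728 (heq_mpr_self _ _)).trans rfl

/-- Over `j = 0` the ramification indices of `F_N/ℚ̄(j)` divide `3`. -/
theorem jF_ord_dvd_three (v : Place Kbar (FF N)) (hv : 0 < v.ord (jF N)) :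
    v.ord (jF N) ∣ 3 := by
  obtain ⟨P⟩ := nonempty_modularPackage N
  haveI := P.finiteDimensional
  have hle : IntermediateField.adjoin Kbar {jF N}
      ≤ IntermediateField.adjoin Kbar {jF N - algebraMap Kbar (FF N) 0} :=
    (adjoin_sub_algebraMap Kbar (jF N) 0).ge
  have hv' : 0 < v.ord (jF N - algebraMap Kbar (FF N) 0) := by
    rwa [map_zero, sub_zero]
  have h := ord_dvd_m_of_localData ((H997.analyticCore N).dataFin 0) _ hle P.finrank_eq v hv'
  rw [analyticCore_dataFin_zero_m, map_zero, sub_zero] at h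
  exact_mod_cast h

/-- Over `j = 1728` the ramification indices of `F_N/ℚ̄(j)` divide `2`. -/
theorem jF_ord_dvd_two (v : Place Kbar (FF N)) (hv : 0 < v.ord (jF N - 1728)) :
    v.ord (jF N - 1728) ∣ 2 := by
  obtain ⟨P⟩ := nonempty_modularPackage N
  haveI := P.finiteDimensional
  have hle : IntermediateField.adjoin Kbar {jF N}
      ≤ IntermediateField.adjoin Kbar {jF N - algebraMap Kbar (FF N) 1728} :=
    (adjoin_sub_algebraMap Kbar (jF N) 1728).ge
  have hv' : 0 < v.ord (jF N - algebraMap Kbar (FF N) 1728) := by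
    rwa [map_ofNat]
  have h := ord_dvd_m_of_localData ((H997.analyticCore N).dataFin 1728) _ hle P.finrank_eq v hv'
  rw [analyticCore_dataFin_1728_m, map_ofNat] at h
  exact_mod_cast h

/-- **M2 for `x = t₂`.**  Any `t ∈ F_N` with `j t² = (t + 256)³` has finite branch values
`⊆ {0, -64}`. -/
theorem t2_branch (t : FF N) (hrel : jF N * t ^ 2 = (t + 256) ^ 3)
    (c : Kbar) (hc0 : c ≠ 0) (hc64 : c ≠ -64) (v : Place Kbar (FF N))
    (hv : 0 < v.ord (t - algebraMap Kbar (FF N) c)) :
    v.ord (t - algebraMap Kbar (FF N) c) = 1 :=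
  t2_unramified t (jF N) hrel (jF_unramified N) (jF_ord_dvd_three N) (jF_ord_dvd_two N)
    c hc0 hc64 v hv

/-- Tameness over the branch value `t₂ = -64`. -/
theorem t2_branch_dvd_two (t : FF N) (hrel : jF N * t ^ 2 = (t + 256) ^ 3)
    (v : Place Kbar (FF N)) (hv : 0 < v.ord (t + 64)) : v.ord (t + 64) ∣ 2 :=
  t2_ord_dvd_two t (jF N) hrel (jF_ord_dvd_two N) v hv

/-- **M2 for `x = t₃`.**  Any `t ∈ F_N` with `j t³ = (t + 27)(t + 243)³` has finite branch
values `⊆ {0, -27}`. -/
theorem t3_branch (t : FF N) (hrel : jF N * t ^ 3 = (t + 27) * (t + 243) ^ 3)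
    (c : Kbar) (hc0 : c ≠ 0) (hc27 : c ≠ -27) (v : Place Kbar (FF N))
    (hv : 0 < v.ord (t - algebraMap Kbar (FF N) c)) :
    v.ord (t - algebraMap Kbar (FF N) c) = 1 :=
  t3_unramified t (jF N) hrel (jF_unramified N) (jF_ord_dvd_three N) (jF_ord_dvd_two N)
    c hc0 hc27 v hv

/-- Tameness over the branch value `t₃ = -27`. -/
theorem t3_branch_dvd_three (t : FF N) (hrel : jF N * t ^ 3 = (t + 27) * (t + 243) ^ 3)
    (v : Place Kbar (FF N)) (hv : 0 < v.ord (t + 27)) : v.ord (t + 27) ∣ 3 :=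
  t3_ord_dvd_three t (jF N) hrel (jF_ord_dvd_three N) v hv

end Modular

end Fermat.Agent.S18.H696
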